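import Fermat.Agent.S58.Contracts
import Fermat.Agent.GAL.LevelRaise
import Fermat.Agent.GAL.ModP.Eigen
import Fermat.Prelude.Thm_ModularFormClass_qCoeff_heckeU

set_option autoImplicit false

namespace Fermat.Agent.S58

open ModularFormClass CongruenceSubgroup

theorem StabForm_qCoeff_sub {N : ℕ} (f g : CuspForm (Gamma0 N) 2) (n : ℕ) :
    qCoeff (f - g : CuspForm (Gamma0 N) 2) n = qCoeff f n - qCoeff g n := by
  unfold qCoeff
  have h : (⇑(f - g : CuspForm (Gamma0 N) 2) : UpperHalfPlane → ℂ) =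
      (⇑f : UpperHalfPlane → ℂ) - (⇑g : UpperHalfPlane → ℂ) := by
    ext τ
    simp
  rw [h, ModularForm.qExpansion_sub one_pos (GAL.ModP.one_mem_strictPeriods N) f g]
  simp

/-- LEAF ST-B (~60 lines).  `g' := α' • (CuspForm.heckeULin 2 (Dvd.intro_left M rfl) ι g - β • ι g)`
with `ι = GAL.cuspFormIncl (Dvd.intro q rfl) 2` (coercion to functions is `rfl`:
`GAL.coe_cuspFormIncl`).  Coefficients: `ModularFormClass.qCoeff_heckeU`
(`CuspForm.coe_heckeULin_apply`, `ModularForm.coeffHeckeU_apply`),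
`GAL.ModP.qCoeff_smul_cusp`, `GAL.ModP.one_mem_strictPeriods`; additivity of `qCoeff` as in the
proof of `qCoeff_smul_cusp` (`ModularForm.qExpansion_sub`/`qExpansion_add`). -/
theorem stab_form (M q : ℕ) [NeZero (M * q)] (g : CuspForm (Gamma0 M) 2) (α' β : ℂ) :
    ∃ g' : CuspForm (Gamma0 (M * q)) 2,
      ∀ n, qCoeff g' n = α' * (qCoeff g (n * q) - β * qCoeff g n) := by
  have hq0 : q ≠ 0 := by
    rintro rfl
    exact NeZero.ne (M * 0) (Nat.mul_zero M)
  set ι := GAL.cuspFormIncl (Dvd.intro q rfl : M ∣ M * q) 2 with hι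
  refine ⟨α' • (CuspForm.heckeULin 2 (Dvd.intro_left M rfl : q ∣ M * q) (ι g) - β • ι g),
    fun n => ?_⟩
  rw [GAL.ModP.qCoeff_smul_cusp, StabForm_qCoeff_sub, GAL.ModP.qCoeff_smul_cusp]
  have h1 : qCoeff (ι g) = qCoeff g := rfl
  have h2 : qCoeff (CuspForm.heckeULin 2 (Dvd.intro_left M rfl : q ∣ M * q) (ι g)) n =
      qCoeff g (n * q) := by
    rw [CuspForm.coe_heckeULin_apply,
      ModularFormClass.qCoeff_heckeU (ι g) (GAL.ModP.one_mem_strictPeriods (M * q)) hq0,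
      ModularForm.coeffHeckeU_apply, h1]
  rw [h2, h1]

end Fermat.Agent.S58
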