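import Fermat.Agent.S58.Mod.StabCoeff
import Fermat.Agent.S58.Mod.StabForm

/-!
# S58, block MOD : `q`-stabilisation

`g` a normalised eigenform of level `M`, `q ∤ M`, `α β` the roots of `X² - a_q X + q`.  Then
`g' = α⁻¹ (U_q g - β g)` (`g` seen in level `M q`, `U_q` the Prelude operator of level `M q`) is a
normalised eigenform of level `M q` with `a_{q^r m}(g') = α^r a_m(g)` for `q ∤ m`.
No analysis: only the Prelude formula `a_n(U_q f) = a_{n q}(f)`.
-/

set_option autoImplicit false

namespace Fermat.Agent.S58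

open ModularFormClass CongruenceSubgroup

theorem stmtStab : StmtStab := by
  intro M q hM hq hqM g hg
  have : NeZero (M * q) := ⟨(Nat.mul_pos hM hq.pos).ne'⟩
  obtain ⟨α, hα⟩ := IsAlgClosed.exists_root
    (Polynomial.X ^ 2 - Polynomial.C (qCoeff g q) * Polynomial.X + Polynomial.C (q : ℂ))
    (by
      have : (Polynomial.X ^ 2 - Polynomial.C (qCoeff g q) * Polynomial.X
        + Polynomial.C (q : ℂ)).degree = 2 := by compute_degree!
      rw [this]; norm_num)
  simp only [Polynomial.IsRoot.def, Polynomial.eval_add, Polynomial.eval_sub, Polynomial.eval_pow,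
    Polynomial.eval_X, Polynomial.eval_mul, Polynomial.eval_C] at hα
  obtain ⟨g', hg'⟩ := stab_form M q g α⁻¹ (qCoeff g q - α)
  obtain ⟨b1, b2, b3, b4, b5⟩ := stab_coeff M q hq hqM (fun n => qCoeff g n) hg.qCoeff_one
    hg.qCoeff_mul_of_coprime hg.qCoeff_prime_pow_of_not_dvd hg.qCoeff_prime_pow_of_dvd
    α (qCoeff g q - α) (by ring) (by linear_combination -hα) (fun n => qCoeff g' n) hg'
  exact ⟨g', ⟨b1, b2, b3, b4⟩, b5⟩

end Fermat.Agent.S58
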