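import Fermat.Agent.S58.Contracts
import Fermat.Agent.GAL.ModP.Eigen

set_option autoImplicit false

namespace Fermat.Agent.S58

open ModularFormClass CongruenceSubgroup CuspForm

theorem Chig_exists_smul {M : ℕ} [NeZero M] {g : CuspForm (Gamma0 M) 2}
    (hg : g.IsNormalizedEigenform) (S : Finset ℕ) (hS : ∀ q : ℕ, q.Prime → q ∣ M → q ∈ S)
    (R' : Subring ℂ) (hR : ∀ ℓ : ℕ, ℓ.Prime → ¬ ℓ ∣ M → ℓ ∉ S → qCoeff g ℓ ∈ R')
    (t : Module.End ℂ (CuspForm (Gamma0 M) 2)) (ht : t ∈ heckeAlgebra M 2 (↑S : Set ℕ)) :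
    ∃ c ∈ R', t g = c • g := by
  unfold heckeAlgebra at ht
  induction ht using Algebra.adjoin_induction with
  | mem x hx =>
    rcases hx with ⟨ℓ, hℓ, hℓN, hℓS, rfl⟩ | ⟨q, hqN, hq, hqS, rfl⟩
    · exact ⟨qCoeff g ℓ, hR ℓ hℓ hℓN (by simpa using hℓS), GAL.ModP.heckeTLin_eq_smul hg hℓ hℓN⟩
    · exact absurd (hS q hq hqN) (by simpa using hqS)
  | algebraMap n =>
    refine ⟨(n : ℂ), intCast_mem _ n, ?_⟩
    rw [Module.algebraMap_end_apply, Int.cast_smul_eq_zsmul]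
  | add x y _ _ hx hy =>
    obtain ⟨c, hc, h1⟩ := hx
    obtain ⟨c', hc', h2⟩ := hy
    exact ⟨c + c', add_mem hc hc', by rw [LinearMap.add_apply, h1, h2, add_smul]⟩
  | mul x y _ _ hx hy =>
    obtain ⟨c, hc, h1⟩ := hx
    obtain ⟨c', hc', h2⟩ := hy
    exact ⟨c' * c, mul_mem hc' hc, by rw [Module.End.mul_apply, h2, map_smul, h1, smul_smul]⟩

/-- LEAF CH-A (~100 lines).  `S` contains the primes dividing `M`, so the generators of
`heckeAlgebra M 2 S` (`CuspForm.heckeGenerators`) are the `T_ℓ`, `ℓ ∤ M`, `ℓ ∉ S`, and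
`GAL.ModP.heckeTLin_eq_smul` says `T_ℓ g = a_ℓ • g`.  By `Algebra.adjoin_induction` every
`t ∈ heckeAlgebra` satisfies `∃ c ∈ R', t g = c • g` for every subring `R'` containing the `a_ℓ`.
Define `chig t := qCoeff (t.1 g) 1` (then `t.1 g = chig t • g` because `qCoeff g 1 = 1`,
`GAL.ModP.qCoeff_smul_cusp`; uniqueness of `c` from `g ≠ 0` is not even needed). -/
theorem exists_chig {M : ℕ} [NeZero M] {g : CuspForm (Gamma0 M) 2} (hg : g.IsNormalizedEigenform)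
    (S : Finset ℕ) (hS : ∀ q : ℕ, q.Prime → q ∣ M → q ∈ S) :
    ∃ chig : heckeAlgebra M 2 (↑S : Set ℕ) →+* ℂ,
      (∀ (ℓ : ℕ) (hℓ : ℓ.Prime) (hℓM : ¬ ℓ ∣ M) (hℓS : ℓ ∉ (↑S : Set ℕ)),
        chig (heckeAlgebra.T hℓ hℓM hℓS) = qCoeff g ℓ) ∧
      ∀ R' : Subring ℂ, (∀ ℓ : ℕ, ℓ.Prime → ¬ ℓ ∣ M → ℓ ∉ S → qCoeff g ℓ ∈ R') →
        ∀ t, chig t ∈ R' := by
  have huniq : ∀ c c' : ℂ, c • g = c' • g → c = c' := by
    intro c c' h
    have h1 := congrArg (fun f : CuspForm (Gamma0 M) 2 => qCoeff f 1) h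
    simp only [GAL.ModP.qCoeff_smul_cusp, hg.qCoeff_one, mul_one] at h1
    exact h1
  have hex : ∀ t : heckeAlgebra M 2 (↑S : Set ℕ), ∃ c : ℂ, t.1 g = c • g := fun t => by
    obtain ⟨c, -, hc⟩ := Chig_exists_smul hg S hS ⊤ (fun _ _ _ _ => Subring.mem_top _) t.1 t.2
    exact ⟨c, hc⟩
  choose χ hχ using hex
  let chig : heckeAlgebra M 2 (↑S : Set ℕ) →+* ℂ :=
    { toFun := χ
      map_one' := by
        apply huniq
        rw [← hχ, one_smul]
        rfl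
      map_mul' := fun t t' => by
        apply huniq
        rw [← hχ]
        show t.1 (t'.1 g) = _
        rw [hχ t', map_smul, hχ t, smul_smul, mul_comm]
      map_zero' := by
        apply huniq
        rw [← hχ, zero_smul]
        rfl
      map_add' := fun t t' => by
        apply huniq
        rw [← hχ, add_smul, ← hχ, ← hχ]
        rfl }
  refine ⟨chig, fun ℓ hℓ hℓM hℓS => ?_, fun R' hR t => ?_⟩
  · apply huniq
    show χ _ • g = _
    rw [← hχ]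
    exact GAL.ModP.heckeTLin_eq_smul hg hℓ hℓM
  · obtain ⟨c, hc, h⟩ := Chig_exists_smul hg S hS R' hR t.1 t.2
    have : chig t = c := huniq _ _ (by
      show χ t • g = _
      rw [← hχ, h])
    rw [this]
    exact hc

end Fermat.Agent.S58
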