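import Fermat.Agent.S58.Contracts
import Fermat.Agent.GAL.ModP.Eigen

set_option autoImplicit false

namespace Fermat.Agent.S58

open ModularFormClass CongruenceSubgroup CuspForm

/-- LEAF CH-B (~80 lines, Mathlib only).  Every element of `χ.range` is `((n : ℤ) : ℂ)` for a unique
`n` (`Int.cast_injective`); `iota x := (n : O)`. -/
theorem exists_iota {H : Type*} [Ring H] (χ : H →+* ℂ)
    (hint : ∀ t, χ t ∈ (Int.castRingHom ℂ).range) (O : Type*) [Ring O] :
    ∃ iota : χ.range →+* O, ∀ (t : H) (n : ℤ), χ t = (n : ℂ) → iota (χ.rangeRestrict t) = (n : O) := by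
  let e : ℤ ≃+* (Int.castRingHom ℂ).range :=
    RingEquiv.ofBijective (Int.castRingHom ℂ).rangeRestrict
      ⟨fun a b h => Int.cast_injective (α := ℂ) (congrArg Subtype.val h),
        (Int.castRingHom ℂ).rangeRestrict_surjective⟩
  have hle : χ.range ≤ (Int.castRingHom ℂ).range := by
    rintro _ ⟨t, rfl⟩
    exact hint t
  refine ⟨(Int.castRingHom O).comp (e.symm.toRingHom.comp (Subring.inclusion hle)), ?_⟩
  intro t n h
  have h1 : e.symm (Subring.inclusion hle (χ.rangeRestrict t)) = n := by
    rw [RingEquiv.symm_apply_eq]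
    apply Subtype.ext
    exact h
  show (Int.castRingHom O) (e.symm (Subring.inclusion hle (χ.rangeRestrict t))) = (n : O)
  rw [h1]
  rfl

end Fermat.Agent.S58
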