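import Fermat.Agent.S58.Contracts
import Fermat.Agent.GAL.ModP.Eigen

set_option autoImplicit false

namespace Fermat.Agent.S58

open ModularFormClass CongruenceSubgroup CuspForm

/-- LEAF CH-D (~100 lines, Mathlib only).  If `z ≠ 0`, let `P` be monic over `ℤ` with `P(z) = 0`
(`z.2 : IsIntegral ℤ z`) of minimal degree, e.g. `minpoly ℤ z`; its constant coefficient `c` is
nonzero (otherwise divide by `X`; the ring is a domain) and `c = -z * (...) ∈ 𝔪` for every ideal
containing `z`.  If `λ ∤ c` then `1 ∈ 𝔪` (Bezout, `Int.isCoprime_iff_gcd_eq_one`), so every prime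
`λ` of the infinite set divides `c`: contradiction (`Nat.le_of_dvd`, `Set.Infinite.exists_gt`). -/
theorem zbar_eq_zero_of_infinite (z : integralClosure ℤ ℂ) (Λ : Set ℕ) (hΛ : Λ.Infinite)
    (h : ∀ lam ∈ Λ, lam.Prime ∧ ∃ 𝔪 : Ideal (integralClosure ℤ ℂ), 𝔪 ≠ ⊤ ∧
      (lam : integralClosure ℤ ℂ) ∈ 𝔪 ∧ z ∈ 𝔪) : z = 0 := by
  by_contra hz
  have hint : IsIntegral ℤ z := Algebra.IsIntegral.isIntegral z
  set P := minpoly ℤ z with hP
  have hev : Polynomial.aeval z P = 0 := minpoly.aeval ℤ z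
  have hdec : Polynomial.aeval z P.divX * z + ((P.coeff 0 : ℤ) : integralClosure ℤ ℂ) = 0 := by
    have h1 := congrArg (Polynomial.aeval z) (Polynomial.divX_mul_X_add P)
    rw [hev] at h1
    simpa using h1
  have hc : P.coeff 0 ≠ 0 := by
    intro h0
    rw [h0, Int.cast_zero, add_zero] at hdec
    have hd0 : Polynomial.aeval z P.divX = 0 := by
      rcases mul_eq_zero.mp hdec with h | h
      · exact h
      · exact absurd h hz
    have hpos : 0 < P.natDegree := minpoly.natDegree_pos hint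
    have hmon : P.divX.Monic := by
      rw [Polynomial.Monic, Polynomial.leadingCoeff, Polynomial.coeff_divX,
        Polynomial.natDegree_divX_eq_natDegree_tsub_one, Nat.sub_add_cancel hpos]
      exact minpoly.monic hint
    have hle := minpoly.min ℤ z hmon hd0
    exact absurd hle (not_le.mpr (Polynomial.degree_divX_lt (minpoly.ne_zero hint)))
  obtain ⟨lam, hlam, hgt⟩ := hΛ.exists_gt (P.coeff 0).natAbs
  obtain ⟨hprime, 𝔪, hne, hlm, hzm⟩ := h lam hlam
  have hcm : ((P.coeff 0 : ℤ) : integralClosure ℤ ℂ) ∈ 𝔪 := by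
    have h2 : ((P.coeff 0 : ℤ) : integralClosure ℤ ℂ) = -(Polynomial.aeval z P.divX * z) := by
      linear_combination hdec
    rw [h2]
    exact 𝔪.neg_mem (𝔪.mul_mem_left _ hzm)
  have hndvd : ¬ (lam : ℤ) ∣ P.coeff 0 := by
    intro hd
    have h3 : lam ∣ (P.coeff 0).natAbs := Int.natCast_dvd.mp hd
    have h4 := Nat.le_of_dvd (Int.natAbs_pos.mpr hc) h3
    omega
  have hcop : IsCoprime (lam : ℤ) (P.coeff 0) :=
    (Nat.prime_iff_prime_int.mp hprime).coprime_iff_not_dvd.mpr hndvd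
  obtain ⟨u, v, huv⟩ := hcop
  apply hne
  rw [Ideal.eq_top_iff_one]
  have h5 : (1 : integralClosure ℤ ℂ) =
      (u : integralClosure ℤ ℂ) * (lam : integralClosure ℤ ℂ) +
        (v : integralClosure ℤ ℂ) * ((P.coeff 0 : ℤ) : integralClosure ℤ ℂ) := by
    have h6 := congrArg (fun t : ℤ => (t : integralClosure ℤ ℂ)) huv
    simp only [Int.cast_add, Int.cast_mul, Int.cast_natCast, Int.cast_one] at h6
    exact h6.symm
  rw [h5]
  exact 𝔪.add_mem (𝔪.mul_mem_left _ hlm) (𝔪.mul_mem_left _ hcm)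

end Fermat.Agent.S58
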