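import Fermat.Agent.S58.Contracts
import Fermat.Agent.GAL.ModP.Eigen

set_option autoImplicit false

namespace Fermat.Agent.S58

open ModularFormClass CongruenceSubgroup CuspForm

/-- LEAF CH-C (~50 lines).  Take `M ∣ N` minimal (`Nat.find` / `WellFounded.min`) such that
`GoodEigensystemOccursAt f M`; a witness `g` is a newform: if `M' ∣ M`, `M' ≠ M` and `g'` of level
`M'` has `a_ℓ(g') = a_ℓ(g)` for `ℓ ∤ M`, then for `ℓ ∤ N` (so `ℓ ∤ M`) `a_ℓ(g') = a_ℓ(f)`,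
contradicting minimality (`M' < M` as `M > 0`). -/
theorem exists_newform {N : ℕ} (hN : 0 < N) (f : CuspForm (Gamma0 N) 2)
    (hf : f.IsNormalizedEigenform) :
    ∃ (M : ℕ) (g : CuspForm (Gamma0 M) 2), M ∣ N ∧ g.IsNewform ∧
      ∀ ℓ : ℕ, ℓ.Prime → ¬ ℓ ∣ N → qCoeff g ℓ = qCoeff f ℓ := by
  classical
  have hex : ∃ M : ℕ, M ∣ N ∧ GoodEigensystemOccursAt f M :=
    ⟨N, dvd_rfl, GoodEigensystemOccursAt.refl hf⟩
  obtain ⟨hMN, g, hg, hgf⟩ := Nat.find_spec hex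
  refine ⟨Nat.find hex, g, hMN, ⟨hg, ?_⟩, hgf⟩
  rintro M' hM' hne ⟨g', hg', hgg'⟩
  have hMpos : 0 < Nat.find hex := Nat.pos_of_dvd_of_pos hMN hN
  have hlt : M' < Nat.find hex := lt_of_le_of_ne (Nat.le_of_dvd hMpos hM') hne
  refine Nat.find_min hex hlt ⟨hM'.trans hMN, g', hg', fun ℓ hℓ hℓN => ?_⟩
  rw [hgg' ℓ hℓ (fun h => hℓN (h.trans hMN)), hgf ℓ hℓ hℓN]

end Fermat.Agent.S58
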