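import Fermat.Agent.S58.Contracts
import Fermat.Agent.GAL.LevelRaise
import Fermat.Agent.GAL.ModP.Eigen
import Fermat.Prelude.Thm_ModularFormClass_qCoeff_heckeU

set_option autoImplicit false

namespace Fermat.Agent.S58

open ModularFormClass CongruenceSubgroup

/-- LEAF ST-A (pure algebra on sequences, ~120 lines).
Put `c r := a (q^(r+1)) - β a (q^r)`; then `c 0 = α` and `c (r+1) = α c r` (use `hgood q r`), so
`c r = α^(r+1)`.  For `n = q^r m`, `q ∤ m` (`Nat.exists_eq_pow_mul_and_not_dvd`, `n ≠ 0`):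
`a (n q) - β a n = a m * c r`, hence `b n = α^r a m`.  All five claims follow
(`m.Coprime n` with `m = 0` forces `n = 1`; `α ≠ 0` because `α β = q ≠ 0`). -/
theorem stab_coeff (M q : ℕ) (hq : q.Prime) (hqM : ¬ q ∣ M) (a : ℕ → ℂ) (h1 : a 1 = 1)
    (hmul : ∀ m n : ℕ, m.Coprime n → a (m * n) = a m * a n)
    (hgood : ∀ p r : ℕ, p.Prime → ¬ p ∣ M → a (p ^ (r + 2)) = a p * a (p ^ (r + 1)) - p * a (p ^ r))
    (hbad : ∀ p r : ℕ, p.Prime → p ∣ M → a (p ^ (r + 2)) = a p * a (p ^ (r + 1)))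
    (α β : ℂ) (hs : α + β = a q) (hp : α * β = q) (b : ℕ → ℂ)
    (hb : ∀ n, b n = α⁻¹ * (a (n * q) - β * a n)) :
    b 1 = 1 ∧ (∀ m n : ℕ, m.Coprime n → b (m * n) = b m * b n) ∧
    (∀ p r : ℕ, p.Prime → ¬ p ∣ M * q → b (p ^ (r + 2)) = b p * b (p ^ (r + 1)) - p * b (p ^ r)) ∧
    (∀ p r : ℕ, p.Prime → p ∣ M * q → b (p ^ (r + 2)) = b p * b (p ^ (r + 1))) ∧
    ∀ ℓ : ℕ, ℓ.Prime → ℓ ≠ q → b ℓ = a ℓ := by
  have hα : α ≠ 0 := by
    rintro rfl
    rw [zero_mul] at hp
    exact (Nat.cast_ne_zero.mpr hq.ne_zero) hp.symm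
  have hc : ∀ r, a (q ^ (r + 1)) - β * a (q ^ r) = α ^ (r + 1) := by
    intro r
    induction r with
    | zero =>
      rw [zero_add, pow_one, pow_zero, h1, pow_one, ← hs]
      ring
    | succ r ih =>
      rw [hgood q r hq hqM]
      linear_combination α * ih - a (q ^ (r + 1)) * hs + a (q ^ r) * hp
  have hbform : ∀ r m, ¬ q ∣ m → b (q ^ r * m) = α ^ r * a m := by
    intro r m hm
    have hcop : ∀ j, (q ^ j).Coprime m := fun j =>
      Nat.Coprime.pow_left j ((Nat.Prime.coprime_iff_not_dvd hq).mpr hm)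
    have e1 : q ^ r * m * q = q ^ (r + 1) * m := by ring
    rw [hb, e1, hmul _ _ (hcop _), hmul _ _ (hcop _)]
    have e2 : a (q ^ (r + 1)) * a m - β * (a (q ^ r) * a m) = α * (α ^ r * a m) := by
      linear_combination a m * hc r
    rw [e2, inv_mul_cancel_left₀ hα]
  have hbcop : ∀ n, ¬ q ∣ n → b n = a n := by
    intro n hn
    have h := hbform 0 n hn
    rwa [pow_zero, one_mul, pow_zero, one_mul] at h
  have hbq : ∀ r, b (q ^ r) = α ^ r := by
    intro r
    have h := hbform r 1 (fun h => hq.one_lt.ne' (Nat.dvd_one.mp h))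
    rwa [mul_one, h1, mul_one] at h
  have hb1 : b 1 = 1 := by
    have h := hbq 0
    rwa [pow_zero, pow_zero] at h
  have hpow : ∀ p : ℕ, p.Prime → p ≠ q → ∀ j, ¬ q ∣ p ^ j := by
    intro p hpp hne j h
    exact hne ((Nat.prime_dvd_prime_iff_eq hq hpp).mp (hq.dvd_of_dvd_pow h)).symm
  have hpr : ∀ p : ℕ, p.Prime → p ≠ q → ¬ q ∣ p := by
    intro p hpp hne h
    exact hne ((Nat.prime_dvd_prime_iff_eq hq hpp).mp h).symm
  refine ⟨hb1, ?_, ?_, ?_, ?_⟩
  · intro m n hmn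
    rcases eq_or_ne m 0 with rfl | hm0
    · have hn1 : n = 1 := (Nat.coprime_zero_left n).mp hmn
      subst hn1
      rw [hb1, mul_one, mul_one]
    rcases eq_or_ne n 0 with rfl | hn0
    · have hm1 : m = 1 := (Nat.coprime_zero_right m).mp hmn
      subst hm1
      rw [hb1, one_mul, one_mul]
    obtain ⟨r, m', hm', rfl⟩ := Nat.exists_eq_pow_mul_and_not_dvd hm0 q hq.ne_one
    obtain ⟨s, n', hn', rfl⟩ := Nat.exists_eq_pow_mul_and_not_dvd hn0 q hq.ne_one
    have hcop' : m'.Coprime n' :=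
      Nat.Coprime.coprime_dvd_left (Dvd.intro_left _ rfl)
        (Nat.Coprime.coprime_dvd_right (Dvd.intro_left _ rfl) hmn)
    have hq' : ¬ q ∣ m' * n' := fun h => (hq.dvd_mul.mp h).elim hm' hn'
    have e1 : q ^ r * m' * (q ^ s * n') = q ^ (r + s) * (m' * n') := by ring
    rw [e1, hbform _ _ hq', hbform _ _ hm', hbform _ _ hn', hmul _ _ hcop']
    ring
  · intro p r hpp hpM
    have hne : p ≠ q := by
      rintro rfl
      exact hpM (Dvd.intro_left _ rfl)
    have hpM' : ¬ p ∣ M := fun h => hpM (Dvd.dvd.mul_right h q)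
    rw [hbcop _ (hpow p hpp hne _), hbcop _ (hpow p hpp hne _), hbcop _ (hpow p hpp hne _),
      hbcop _ (hpr p hpp hne)]
    exact hgood p r hpp hpM'
  · intro p r hpp hpM
    by_cases hne : p = q
    · subst hne
      have h1' := hbq 1
      rw [pow_one, pow_one] at h1'
      rw [hbq, hbq, h1']
      ring
    · have hpM' : p ∣ M := by
        rcases hpp.dvd_mul.mp hpM with h | h
        · exact h
        · exact absurd ((Nat.prime_dvd_prime_iff_eq hpp hq).mp h) hne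
      rw [hbcop _ (hpow p hpp hne _), hbcop _ (hpow p hpp hne _), hbcop _ (hpr p hpp hne)]
      exact hbad p r hpp hpM'
  · intro ℓ hℓ hne
    exact hbcop _ (hpr ℓ hℓ hne)

end Fermat.Agent.S58
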